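/-
S33lib / RankP / Conv  (helper9)

Finite "measure" calculus on a finite abelian group `G` with values in `ℚ̄`: the pairing
`⟨μ, φ⟩ = ∑ x, μ x * φ x`, convolution, convolution powers, and their compatibility with
comultiplication-type decompositions `φ (x + y) = ∑ i, ψ i x * ψ' i y` (in particular with characters).
-/
import Mathlib

set_option autoImplicit false

noncomputable section

namespace Fermat.Agent.S33lib.RankP

local notation "Qb" => AlgebraicClosure ℚ

variable {G : Type} [AddCommGroup G] [Fintype G]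

/-- the pairing of a measure with a function -/
def pair (μ φ : G → Qb) : Qb := ∑ x, μ x * φ x

/-- convolution of measures -/
def conv (μ ν : G → Qb) : G → Qb := fun z => ∑ x, μ x * ν (z - x)

/-- the unit measure at `0` -/
def dirac [DecidableEq G] : G → Qb := fun x => if x = 0 then 1 else 0

/-- convolution powers -/
def cpow [DecidableEq G] (μ : G → Qb) : ℕ → G → Qb
  | 0 => dirac
  | k + 1 => conv μ (cpow μ k)

theorem pair_dirac [DecidableEq G] (φ : G → Qb) : pair dirac φ = φ 0 := by
  unfold pair dirac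
  rw [Finset.sum_eq_single (0 : G)]
  · rw [if_pos rfl, one_mul]
  · intro x _ hx
    rw [if_neg hx, zero_mul]
  · intro h
    exact absurd (Finset.mem_univ _) h

/-- pairing a convolution against a function with a comultiplication decomposition -/
theorem pair_conv (μ ν φ : G → Qb) {n : ℕ} (ψ ψ' : Fin n → G → Qb)
    (hφ : ∀ x y, φ (x + y) = ∑ i, ψ i x * ψ' i y) :
    pair (conv μ ν) φ = ∑ i, pair μ (ψ i) * pair ν (ψ' i) := by
  unfold pair conv
  calc ∑ z, (∑ x, μ x * ν (z - x)) * φ z
      = ∑ z, ∑ x, μ x * ν (z - x) * φ z := by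
        refine Finset.sum_congr rfl fun z _ => ?_
        rw [Finset.sum_mul]
    _ = ∑ x, ∑ z, μ x * ν (z - x) * φ z := Finset.sum_comm
    _ = ∑ x, ∑ w, μ x * ν w * φ (x + w) := by
        refine Finset.sum_congr rfl fun x _ => ?_
        refine Fintype.sum_equiv (Equiv.subRight x) (fun z => μ x * ν (z - x) * φ z)
          (fun w => μ x * ν w * φ (x + w)) fun z => ?_
        simp only [Equiv.subRight_apply]
        rw [add_sub_cancel]
    _ = ∑ x, ∑ w, ∑ i, (μ x * ψ i x) * (ν w * ψ' i w) := by
        refine Finset.sum_congr rfl fun x _ => ?_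
        refine Finset.sum_congr rfl fun w _ => ?_
        rw [hφ, Finset.mul_sum]
        refine Finset.sum_congr rfl fun i _ => ?_
        ring
    _ = ∑ x, ∑ i, ∑ w, (μ x * ψ i x) * (ν w * ψ' i w) := by
        refine Finset.sum_congr rfl fun x _ => ?_
        exact Finset.sum_comm
    _ = ∑ i, ∑ x, ∑ w, (μ x * ψ i x) * (ν w * ψ' i w) := Finset.sum_comm
    _ = ∑ i, (∑ x, μ x * ψ i x) * ∑ w, ν w * ψ' i w := by
        refine Finset.sum_congr rfl fun i _ => ?_
        rw [Finset.sum_mul_sum]

/-- characters turn convolution into multiplication -/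
theorem pair_conv_char (μ ν χ : G → Qb) (hχ : ∀ x y, χ (x + y) = χ x * χ y) :
    pair (conv μ ν) χ = pair μ χ * pair ν χ := by
  rw [pair_conv μ ν χ (fun _ : Fin 1 => χ) (fun _ : Fin 1 => χ) (fun x y => by
    rw [Fin.sum_univ_one]; exact hχ x y), Fin.sum_univ_one]

theorem pair_cpow_char [DecidableEq G] (μ χ : G → Qb) (hχ : ∀ x y, χ (x + y) = χ x * χ y)
    (hχ0 : χ 0 = 1) (k : ℕ) : pair (cpow μ k) χ = pair μ χ ^ k := by
  induction k with
  | zero => rw [pow_zero]; show pair dirac χ = 1; rw [pair_dirac, hχ0]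
  | succ k ih =>
    show pair (conv μ (cpow μ k)) χ = _
    rw [pair_conv_char _ _ _ hχ, ih, pow_succ, mul_comm]

end Fermat.Agent.S33lib.RankP

end
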