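/-
S33lib / RankP / Chars  (helper9)

The `p` characters `χ_j (x) = ζ ^ (j * e x)` of a group `G ≃+ ZMod p` with values in `ℚ̄`
(`ζ` a primitive `p`-th root of unity): multiplicativity, orthogonality, Fourier inversion.
-/
import Mathlib
import Fermat.Agent.S33lib.RankP.Conv

set_option autoImplicit false

noncomputable section

namespace Fermat.Agent.S33lib.RankP

local notation "Qb" => AlgebraicClosure ℚ

variable {p : ℕ} [hp : Fact p.Prime] {G : Type} [AddCommGroup G]

/-- the characters of `G ≃+ ZMod p` -/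
def chi (e : G ≃+ ZMod p) {ζ : Qb} (hζ : ζ ^ p = 1) (j : ZMod p) (x : G) : Qb :=
  AddChar.zmodChar p hζ (j * e x)

variable (e : G ≃+ ZMod p) {ζ : Qb} (hζ : ζ ^ p = 1)

theorem chi_add (j : ZMod p) (x y : G) : chi e hζ j (x + y) = chi e hζ j x * chi e hζ j y := by
  unfold chi
  rw [map_add, mul_add, AddChar.map_add_eq_mul]

theorem chi_zero (j : ZMod p) : chi e hζ j 0 = 1 := by
  unfold chi
  rw [map_zero, mul_zero, AddChar.map_zero_eq_one]

theorem chi_pow (j : ZMod p) (x : G) : chi e hζ j x ^ p = 1 := by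
  unfold chi
  rw [← AddChar.map_nsmul_eq_pow, nsmul_eq_mul, ZMod.natCast_self, zero_mul,
    AddChar.map_zero_eq_one]

/-- orthogonality -/
theorem sum_chi [DecidableEq G] (hprim : IsPrimitiveRoot ζ p) (x : G) :
    ∑ j : ZMod p, chi e hζ j x = if x = 0 then (p : Qb) else 0 := by
  unfold chi
  have h := AddChar.sum_mulShift (ψ := AddChar.zmodChar p hζ) (e x)
    (AddChar.zmodChar_primitive_of_primitive_root p hprim)
  rw [h, ZMod.card]
  by_cases hx : x = 0
  · rw [if_pos hx, if_pos (by rw [hx, map_zero])]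
  · rw [if_neg hx, if_neg (fun h0 => hx (e.map_eq_zero_iff.1 h0)), Nat.cast_zero]

variable [Fintype G]

/-- Fourier inversion -/
theorem fourier_inversion [DecidableEq G] (hprim : IsPrimitiveRoot ζ p) (μ : G → Qb) (x : G) :
    ∑ j : ZMod p, chi e hζ j (-x) * pair μ (chi e hζ j) = (p : Qb) * μ x := by
  unfold pair
  calc ∑ j : ZMod p, chi e hζ j (-x) * ∑ z, μ z * chi e hζ j z
      = ∑ j : ZMod p, ∑ z, μ z * chi e hζ j (z - x) := by
        refine Finset.sum_congr rfl fun j _ => ?_
        rw [Finset.mul_sum]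
        refine Finset.sum_congr rfl fun z _ => ?_
        rw [sub_eq_add_neg, chi_add]
        ring
    _ = ∑ z, ∑ j : ZMod p, μ z * chi e hζ j (z - x) := Finset.sum_comm
    _ = ∑ z, μ z * (if z - x = 0 then (p : Qb) else 0) := by
        refine Finset.sum_congr rfl fun z _ => ?_
        rw [← Finset.mul_sum, sum_chi e hζ hprim]
    _ = (p : Qb) * μ x := by
        rw [Finset.sum_eq_single x]
        · rw [sub_self, if_pos rfl, mul_comm]
        · intro z _ hz
          rw [if_neg (sub_ne_zero.2 hz), mul_zero]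
        · intro h
          exact absurd (Finset.mem_univ _) h

/-- the difference form used below -/
theorem fourier_diff [DecidableEq G] (hprim : IsPrimitiveRoot ζ p) (μ : G → Qb) (x : G) :
    (p : Qb) * (μ x - μ 0) = ∑ j : ZMod p, (chi e hζ j (-x) - 1) * pair μ (chi e hζ j) := by
  have h1 := fourier_inversion e hζ hprim μ x
  have h0 := fourier_inversion e hζ hprim μ 0
  rw [mul_sub, ← h1, ← h0, ← Finset.sum_sub_distrib]
  refine Finset.sum_congr rfl fun j _ => ?_
  rw [neg_zero, chi_zero]
  ring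

end Fermat.Agent.S33lib.RankP

end
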