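/-
S33lib / RankP / Main  (helper9)  — "Tate–Oort-lite" for groups of order `p`

Let `A ∣ p` be a valuation ring of `ℚ̄`, `p` odd, and `G` a group of order `p` (trivial inertia action).
A set `H` of functions `G → A0 A` (`A0 A = A^I`, a discrete valuation ring with uniformizer `p`: `e = 1`)
which contains `p ^ n • δ_x` for every `x`, is closed under comultiplication
(`φ (x + y) = ∑ i, ψ i x * ψ' i y` with `ψ i, ψ' i ∈ H`) cannot be *connected*, i.e. it contains a
function `φ` with `φ x - φ 0` a unit for some `x`.  (No ring structure of `H` is needed.)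

Proof by duality, no module theory: the dual `H* = {μ : ⟨μ, H⟩ ⊆ A}` is closed under convolution and
bounded (`p ^ N μ` is `A`-valued), so every character value `⟨μ, χ_j⟩` is a power-bounded element of
`ℚ̄`, hence lies in `A` (rank one).  Fourier inversion gives
`p (μ x - μ 0) = ∑ j, (χ_j (-x) - 1) ⟨μ, χ_j⟩ ∈ 𝔪_A`.  If `H` is connected, `μ₁ = (δ_0 - δ_g) / p` lies in
`H*` (an inertia-fixed element of `𝔪_A` is divisible by `p`), and the formula yields `-2 ∈ 𝔪_A`.
-/
import Mathlib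
import Fermat.Agent.S19lib.Iface
import Fermat.Agent.S19lib.G.ValBasics
import Fermat.Agent.S36lib.Desc.Base
import Fermat.Agent.S33lib.RankP.Chars

set_option autoImplicit false

noncomputable section

namespace Fermat.Agent.S33lib.RankP

open Fermat.Agent.S19lib

local notation "Qb" => AlgebraicClosure ℚ
local notation "GQ" => (AlgebraicClosure ℚ ≃ₐ[ℚ] AlgebraicClosure ℚ)

variable {p : ℕ} [hp : Fact p.Prime] {A : ValuationSubring Qb}

/-! ### valuation facts -/

/-- a `p`-th root of unity is congruent to `1` modulo the maximal ideal -/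
theorem val_sub_one_lt_of_pow_eq_one (hA : A.LiesOverPrime p) {w : Qb} (hw : w ^ p = 1) :
    A.valuation (w - 1) < 1 := by
  have hwA : w ∈ A := by
    rw [← A.valuation_le_one_iff]
    by_contra h
    push Not at h
    have := one_lt_pow₀ h hp.out.ne_zero
    rw [← map_pow, hw, map_one] at this
    exact lt_irrefl _ this
  have hxA : w - 1 ∈ A := sub_mem hwA A.one_mem
  obtain ⟨r, hr⟩ := exists_add_pow_prime_eq hp.out (⟨w - 1, hxA⟩ : A) 1
  have hr' : w ^ p = (w - 1) ^ p + 1 + (p : Qb) * (w - 1) * (r : Qb) := by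
    have := congrArg (fun z : A => (z : Qb)) hr
    simp only [one_pow, mul_one] at this
    push_cast at this
    rw [sub_add_cancel] at this
    exact this
  rw [hw] at hr'
  have hxp : (w - 1) ^ p = -((p : Qb) * (w - 1) * (r : Qb)) := by linear_combination -hr'
  have hle : A.valuation (w - 1) ≤ 1 := (A.valuation_le_one_iff _).2 hxA
  rcases hle.lt_or_eq with h | h
  · exact h
  · exfalso
    have h1 : A.valuation ((w - 1) ^ p) = 1 := by rw [map_pow, h, one_pow]
    rw [hxp, Valuation.map_neg, map_mul, map_mul, h, mul_one] at h1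
    have hpl : A.valuation ((p : ℕ) : Qb) < 1 := Fermat.Agent.S19lib.G.val_prime_lt_one hA
    have hrl : A.valuation (r : Qb) ≤ 1 := (A.valuation_le_one_iff _).2 r.2
    have : A.valuation ((p : ℕ) : Qb) * A.valuation (r : Qb) < 1 :=
      lt_of_le_of_lt (mul_le_of_le_one_right' hrl) hpl
    rw [h1] at this
    exact lt_irrefl _ this

/-- an inertia-fixed element of the maximal ideal is divisible by `p` (`e = 1`) -/
theorem val_le_prime_of_fixed (hA : A.LiesOverPrime p) {ε : Qb}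
    (hfix : ∀ σ ∈ IA A, σ ε = ε) (hlt : A.valuation ε < 1) :
    A.valuation ε ≤ A.valuation ((p : ℕ) : Qb) := by
  rcases eq_or_ne ε 0 with rfl | h0
  · rw [map_zero]; exact zero_le
  obtain ⟨m, hm⟩ := Fermat.Agent.S36lib.Desc.exists_zpow_mul_unit A hp.out hA h0 hfix
  rw [map_mul, map_zpow₀] at hm
  have hq1 : A.valuation ((p : ℕ) : Qb) < 1 := Fermat.Agent.S19lib.G.val_prime_lt_one hA
  have hq0 : A.valuation ((p : ℕ) : Qb) ≠ 0 := Fermat.Agent.S19lib.G.val_prime_ne_zero hp.out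
  have hqpos : 0 < A.valuation ((p : ℕ) : Qb) := zero_lt_iff.2 hq0
  -- `m < 0`
  have hm_neg : m < 0 := by
    by_contra hge
    push Not at hge
    obtain ⟨n, rfl⟩ := Int.eq_ofNat_of_zero_le hge
    rw [zpow_natCast] at hm
    have h1 : A.valuation ((p : ℕ) : Qb) ^ n ≤ 1 := pow_le_one₀ hqpos.le hq1.le
    have h2 : A.valuation ε * A.valuation ((p : ℕ) : Qb) ^ n < 1 :=
      lt_of_le_of_lt (mul_le_of_le_one_right' h1) hlt
    rw [hm] at h2
    exact lt_irrefl _ h2
  obtain ⟨n, hn⟩ : ∃ n : ℕ, m = -((n : ℤ) + 1) := ⟨(-m - 1).toNat, by omega⟩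
  have hv : A.valuation ε = A.valuation ((p : ℕ) : Qb) ^ (n + 1) := by
    rw [hn, zpow_neg] at hm
    have h3 : A.valuation ((p : ℕ) : Qb) ^ ((n : ℤ) + 1) ≠ 0 := zpow_ne_zero _ hq0
    have h4 := (mul_inv_eq_one₀ h3).1 hm
    rw [h4]
    exact_mod_cast rfl
  rw [hv, pow_succ]
  exact mul_le_of_le_one_left' (pow_le_one₀ hqpos.le hq1.le)

/-- **rank one**: a power-bounded element of `ℚ̄` lies in `A` -/
theorem mem_of_pow_bounded (hA : A.LiesOverPrime p) {y : Qb} (N : ℕ)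
    (h : ∀ k : ℕ, ((p : ℕ) : Qb) ^ N * y ^ k ∈ A) : y ∈ A := by
  rw [← A.valuation_le_one_iff]
  by_contra hy
  push Not at hy
  have hy0 : y ≠ 0 := by
    rintro rfl
    rw [map_zero] at hy
    exact not_lt.2 zero_le hy
  have hq1 : A.valuation ((p : ℕ) : Qb) < 1 := Fermat.Agent.S19lib.G.val_prime_lt_one hA
  have hanu : y⁻¹ ∈ A.nonunits := by
    rw [A.mem_nonunits_iff, map_inv₀]
    exact inv_lt_one_of_one_lt₀ hy
  obtain ⟨j, hj⟩ := Fermat.Agent.S19lib.G.exists_pow_val_le hp.out hA hanu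
  -- `v(y⁻¹)^(j (N+1)) ≤ v(p)^(N+1)`
  have h1 : A.valuation y⁻¹ ^ (j * (N + 1)) ≤ A.valuation ((p : ℕ) : Qb) ^ (N + 1) := by
    rw [pow_mul]
    exact pow_le_pow_left₀ zero_le hj _
  have h2 := (A.valuation_le_one_iff _).2 (h (j * (N + 1)))
  rw [map_mul, map_pow, map_pow] at h2
  have hyk : A.valuation y ^ (j * (N + 1)) * A.valuation y⁻¹ ^ (j * (N + 1)) = 1 := by
    rw [← mul_pow, ← map_mul, mul_inv_cancel₀ hy0, map_one, one_pow]
  have h3 : (1 : A.ValueGroup) ≤ A.valuation ((p : ℕ) : Qb) := by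
    calc (1 : A.ValueGroup)
        = A.valuation y ^ (j * (N + 1)) * A.valuation y⁻¹ ^ (j * (N + 1)) := hyk.symm
      _ ≤ A.valuation y ^ (j * (N + 1)) * A.valuation ((p : ℕ) : Qb) ^ (N + 1) := by gcongr
      _ = (A.valuation ((p : ℕ) : Qb) ^ N * A.valuation y ^ (j * (N + 1))) *
            A.valuation ((p : ℕ) : Qb) := by
          rw [pow_succ, ← mul_assoc, mul_comm (A.valuation y ^ (j * (N + 1)))]
      _ ≤ 1 * A.valuation ((p : ℕ) : Qb) := by gcongr
      _ = A.valuation ((p : ℕ) : Qb) := one_mul _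
  exact not_le.2 hq1 h3

/-! ### the dual of a set of functions -/

section Dual

variable {G : Type} [AddCommGroup G] [Fintype G]

/-- the dual: measures pairing `H` into `A` -/
def Bstar (A : ValuationSubring Qb) (H : Set (G → Qb)) : Set (G → Qb) :=
  {μ | ∀ φ ∈ H, pair μ φ ∈ A}

/-- comultiplication-closedness of a set of functions -/
def ComulClosed (H : Set (G → Qb)) : Prop :=
  ∀ φ ∈ H, ∃ (n : ℕ) (ψ ψ' : Fin n → G → Qb), (∀ i, ψ i ∈ H) ∧ (∀ i, ψ' i ∈ H) ∧
    ∀ x y : G, φ (x + y) = ∑ i, ψ i x * ψ' i y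

theorem conv_mem_Bstar {H : Set (G → Qb)} (hH : ComulClosed H) {μ ν : G → Qb}
    (hμ : μ ∈ Bstar A H) (hν : ν ∈ Bstar A H) : conv μ ν ∈ Bstar A H := by
  intro φ hφ
  obtain ⟨n, ψ, ψ', hψ, hψ', hdec⟩ := hH φ hφ
  rw [pair_conv μ ν φ ψ ψ' hdec]
  exact sum_mem fun i _ => A.mul_mem _ _ (hμ _ (hψ i)) (hν _ (hψ' i))

theorem cpow_mem_Bstar [DecidableEq G] {H : Set (G → Qb)} (hH : ComulClosed H)
    (hval : ∀ φ ∈ H, ∀ x, φ x ∈ A) {μ : G → Qb} (hμ : μ ∈ Bstar A H) (k : ℕ) :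
    cpow μ k ∈ Bstar A H := by
  induction k with
  | zero =>
    intro φ hφ
    show pair dirac φ ∈ A
    rw [pair_dirac]
    exact hval φ hφ 0
  | succ k ih => exact conv_mem_Bstar hH hμ ih

omit hp [AddCommGroup G] in
/-- boundedness of the dual: `p ^ N μ` is `A`-valued, uniformly in `μ` -/
theorem exists_bound (hA : A.LiesOverPrime p) {H : Set (G → Qb)}
    (hfull : ∀ x : G, ∃ n : ℕ, ∃ φ ∈ H, φ x = ((p : ℕ) : Qb) ^ n ∧ ∀ y, y ≠ x → φ y = 0) :
    ∃ N : ℕ, ∀ μ ∈ Bstar A H, ∀ x, ((p : ℕ) : Qb) ^ N * μ x ∈ A := by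
  classical
  choose n φ hφH hφx hφy using hfull
  refine ⟨∑ x, n x, fun μ hμ x => ?_⟩
  have h1 : pair μ (φ x) = ((p : ℕ) : Qb) ^ n x * μ x := by
    unfold pair
    rw [Finset.sum_eq_single x]
    · rw [hφx, mul_comm]
    · intro y _ hy
      rw [hφy x y hy, mul_zero]
    · intro h
      exact absurd (Finset.mem_univ _) h
  have h2 : ((p : ℕ) : Qb) ^ n x * μ x ∈ A := h1 ▸ hμ _ (hφH x)
  have hle : n x ≤ ∑ x, n x := Finset.single_le_sum (fun _ _ => Nat.zero_le _) (Finset.mem_univ x)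
  obtain ⟨d, hd⟩ := Nat.exists_eq_add_of_le hle
  rw [hd, pow_add, mul_comm (((p : ℕ) : Qb) ^ n x), mul_assoc]
  exact A.mul_mem _ _ (A.pow_mem (Fermat.Agent.S19lib.G.natCast_prime_mem hA) d) h2

/-- **integrality**: the character values of an element of the dual lie in `A` -/
theorem pair_char_mem [DecidableEq G] (hA : A.LiesOverPrime p) {H : Set (G → Qb)}
    (hH : ComulClosed H) (hval : ∀ φ ∈ H, ∀ x, φ x ∈ A)
    (hfull : ∀ x : G, ∃ n : ℕ, ∃ φ ∈ H, φ x = ((p : ℕ) : Qb) ^ n ∧ ∀ y, y ≠ x → φ y = 0)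
    {μ : G → Qb} (hμ : μ ∈ Bstar A H) {χ : G → Qb} (hχ : ∀ x y, χ (x + y) = χ x * χ y)
    (hχ0 : χ 0 = 1) (hχA : ∀ x, χ x ∈ A) : pair μ χ ∈ A := by
  obtain ⟨N, hN⟩ := exists_bound hA hfull
  refine mem_of_pow_bounded hA N fun k => ?_
  rw [← pair_cpow_char μ χ hχ hχ0 k]
  unfold pair
  rw [Finset.mul_sum]
  refine sum_mem fun x _ => ?_
  rw [← mul_assoc]
  exact A.mul_mem _ _ (hN _ (cpow_mem_Bstar hH hval hμ k) x) (hχA x)

end Dual

/-! ### the key lemma and the theorem -/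

section Key

variable {G : Type} [AddCommGroup G] [Fintype G] [DecidableEq G]

/-- **key lemma**: for `μ` in the dual of a comultiplication-closed full set of functions on a group
of order `p`, `p (μ x - μ 0)` lies in the maximal ideal. -/
theorem val_mul_sub_lt_one (hA : A.LiesOverPrime p) (e : G ≃+ ZMod p) {H : Set (G → Qb)}
    (hH : ComulClosed H) (hval : ∀ φ ∈ H, ∀ x, φ x ∈ A)
    (hfull : ∀ x : G, ∃ n : ℕ, ∃ φ ∈ H, φ x = ((p : ℕ) : Qb) ^ n ∧ ∀ y, y ≠ x → φ y = 0)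
    {μ : G → Qb} (hμ : μ ∈ Bstar A H) (x : G) :
    A.valuation (((p : ℕ) : Qb) * (μ x - μ 0)) < 1 := by
  have : NeZero ((p : ℕ) : Qb) := ⟨by exact_mod_cast hp.out.ne_zero⟩
  obtain ⟨ζ, hprim⟩ : ∃ ζ : Qb, IsPrimitiveRoot ζ p :=
    HasEnoughRootsOfUnity.exists_primitiveRoot Qb p
  have hζ : ζ ^ p = 1 := hprim.pow_eq_one
  rw [fourier_diff e hζ hprim μ x]
  refine A.valuation.map_sum_lt one_ne_zero fun j _ => ?_
  have h1 : A.valuation (chi e hζ j (-x) - 1) < 1 :=
    val_sub_one_lt_of_pow_eq_one hA (chi_pow e hζ j (-x))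
  have hχA : ∀ z, chi e hζ j z ∈ A := fun z => by
    have hz := val_sub_one_lt_of_pow_eq_one hA (chi_pow e hζ j z)
    have : chi e hζ j z - 1 ∈ A := (A.valuation_le_one_iff _).1 hz.le
    have h2 := A.add_mem _ _ this A.one_mem
    rwa [sub_add_cancel] at h2
  have h2 : A.valuation (pair μ (chi e hζ j)) ≤ 1 :=
    (A.valuation_le_one_iff _).2
      (pair_char_mem hA hH hval hfull hμ (chi_add e hζ j) (chi_zero e hζ j) hχA)
  rw [map_mul]
  exact lt_of_le_of_lt (mul_le_of_le_one_right' h2) h1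

end Key

/-- **no connected Hopf order on a group of order `p` with trivial inertia action** (`p` odd,
`e = 1`): a comultiplication-closed set `H` of `A0`-valued functions on a group of order `p`
containing `p ^ n δ_x` for all `x` contains a function which is not constant modulo `𝔪_A`. -/
theorem false_of_connected {G : Type} [AddCommGroup G] [Finite G] (hp2 : p ≠ 2)
    (hA : A.LiesOverPrime p) (hG : Nat.card G = p) (H : Set (G → Qb))
    (hval : ∀ φ ∈ H, ∀ x, φ x ∈ A0 A)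
    (hfull : ∀ x : G, ∃ n : ℕ, ∃ φ ∈ H, φ x = ((p : ℕ) : Qb) ^ n ∧ ∀ y, y ≠ x → φ y = 0)
    (hH : ComulClosed H)
    (hconn : ∀ φ ∈ H, ∀ x, A.valuation (φ x - φ 0) < 1) : False := by
  classical
  have := Fintype.ofFinite G
  -- `G ≃+ ZMod p`
  have : IsAddCyclic G := isAddCyclic_of_prime_card hG
  let e : G ≃+ ZMod p :=
    (zmodAddCyclicAddEquiv (G := G) inferInstance).symm.trans (ZMod.ringEquivCongr hG).toAddEquiv
  have hvalA : ∀ φ ∈ H, ∀ x, φ x ∈ A := fun φ hφ x => (hval φ hφ x).1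
  -- a nonzero element
  have : Nontrivial G := by
    rw [← Finite.one_lt_card_iff_nontrivial, hG]
    exact hp.out.one_lt
  obtain ⟨g, hg⟩ := exists_ne (0 : G)
  have hp0 : ((p : ℕ) : Qb) ≠ 0 := by exact_mod_cast hp.out.ne_zero
  -- the measure `(δ_0 - δ_g) / p`
  let μ₁ : G → Qb := fun y =>
    ((if y = 0 then (1 : Qb) else 0) - (if y = g then 1 else 0)) * (((p : ℕ) : Qb))⁻¹
  have hpair : ∀ φ : G → Qb, pair μ₁ φ = (φ 0 - φ g) * (((p : ℕ) : Qb))⁻¹ := by
    intro φ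
    unfold pair
    have : ∀ y, μ₁ y * φ y = ((if y = 0 then φ y else 0) - (if y = g then φ y else 0)) *
        (((p : ℕ) : Qb))⁻¹ := by
      intro y
      show ((if y = 0 then (1 : Qb) else 0) - (if y = g then 1 else 0)) * (((p : ℕ) : Qb))⁻¹ * φ y = _
      split_ifs <;> ring
    simp_rw [this]
    rw [← Finset.sum_mul, Finset.sum_sub_distrib, Finset.sum_ite_eq' Finset.univ (0 : G),
      Finset.sum_ite_eq' Finset.univ g]
    simp
  have hμ₁ : μ₁ ∈ Bstar A H := by
    intro φ hφ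
    rw [hpair]
    have hfix : ∀ σ ∈ IA A, σ (φ g - φ 0) = φ g - φ 0 := fun σ hσ => by
      rw [map_sub, (hval φ hφ g).2 σ hσ, (hval φ hφ 0).2 σ hσ]
    have hle := val_le_prime_of_fixed hA hfix (hconn φ hφ g)
    rw [← A.valuation_le_one_iff, map_mul, map_inv₀, ← neg_sub, Valuation.map_neg]
    exact mul_inv_le_one_of_le₀ hle zero_le
  have hkey := val_mul_sub_lt_one hA e hH hvalA hfull hμ₁ g
  have hval2 : ((p : ℕ) : Qb) * (μ₁ g - μ₁ 0) = ((-2 : ℤ) : Qb) := by
    show ((p : ℕ) : Qb) * (((if g = 0 then (1 : Qb) else 0) - (if g = g then 1 else 0)) *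
      (((p : ℕ) : Qb))⁻¹ - ((if (0 : G) = 0 then (1 : Qb) else 0) - (if (0 : G) = g then 1 else 0)) *
      (((p : ℕ) : Qb))⁻¹) = _
    rw [if_neg hg, if_pos rfl, if_pos rfl, if_neg (Ne.symm hg)]
    push_cast
    field_simp
    ring
  rw [hval2] at hkey
  have h2 : ¬ ((p : ℕ) : ℤ) ∣ (-2 : ℤ) := by
    rw [Int.dvd_neg]
    intro h
    have h' : p ∣ 2 := by exact_mod_cast h
    exact hp2 ((Nat.prime_dvd_prime_iff_eq hp.out Nat.prime_two).1 h')
  rw [Fermat.Agent.S19lib.G.val_intCast_eq_one hp.out hA h2] at hkey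
  exact lt_irrefl _ hkey

/-- the same for a `HopfOrder` over `A0 A` on a subgroup of order `p` with trivial inertia action:
it is not connected. -/
theorem exists_unit_diff_of_hopfOrder {J : Type} [AddCommGroup J] [DistribMulAction GQ J]
    {Γ : AddSubgroup J} (hp2 : p ≠ 2) (hA : A.LiesOverPrime p)
    (O : HopfOrder A p (A0 A) (IA A) Γ) (hΓ : Nat.card Γ = p)
    (htriv : ∀ σ ∈ IA A, ∀ x : Γ, σ • (x : J) = (x : J)) :
    ∃ φ ∈ O.H, ∃ x : Γ, A.valuation (φ x - φ 0) = 1 := by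
  classical
  by_contra hcon
  push Not at hcon
  have : Finite Γ := Nat.finite_of_card_ne_zero (by rw [hΓ]; exact hp.out.ne_zero)
  refine false_of_connected (G := Γ) hp2 hA hΓ O.H ?_ ?_ O.comul ?_
  · intro φ hφ x
    exact ⟨O.integral φ hφ x, fun σ hσ =>
      (O.equivariant φ hφ σ hσ x x (htriv σ hσ x).symm).symm⟩
  · intro x
    obtain ⟨n, hn⟩ := O.full (fun y => if y = x then 1 else 0) (fun σ hσ x' y' hy => by
      have hxy : y' = x' := Subtype.ext (hy.trans (htriv σ hσ x'))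
      rw [hxy]
      split_ifs
      · exact (map_one σ).symm
      · exact (map_zero σ).symm)
    refine ⟨n, _, hn, ?_, fun y hy => ?_⟩
    · show ((p : ℕ) : Qb) ^ n * (if x = x then 1 else 0) = _
      rw [if_pos rfl, mul_one]
    · show ((p : ℕ) : Qb) ^ n * (if y = x then 1 else 0) = _
      rw [if_neg hy, mul_zero]
  · intro φ hφ x
    have hle : A.valuation (φ x - φ 0) ≤ 1 :=
      (A.valuation_le_one_iff _).2 (sub_mem (O.integral φ hφ x) (O.integral φ hφ 0))
    exact lt_of_le_of_ne hle (hcon φ hφ x)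

end Fermat.Agent.S33lib.RankP

end
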